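/-
S58 GLUE (sub-lead helper51), block (1): the minimal level.

A normalized eigenform `f` of level `N > 0` has the same good eigensystem as a newform `g`
(prelude sense: `CuspForm.IsNewform`, defined through `GoodEigensystemOccursAt`) of some level
`M ∣ N`.  No Atkin-Lehner theory: `M` is the least divisor of `N` at which the good eigensystem
of `f` occurs.
-/
import Fermat.Prelude.Def_CuspForm_Newforms

set_option autoImplicit false

open ModularFormClass

namespace Fermat.Agent.H96.S58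

/-- **Minimal level.** -/
theorem exists_newform_of_eigenform {N : ℕ} (hN : 0 < N)
    (f : CuspForm (CongruenceSubgroup.Gamma0 N) 2) (hf : f.IsNormalizedEigenform) :
    ∃ (M : ℕ) (_ : M ∣ N) (g : CuspForm (CongruenceSubgroup.Gamma0 M) 2), g.IsNewform ∧
      ∀ ℓ : ℕ, ℓ.Prime → ¬ ℓ ∣ N → qCoeff g ℓ = qCoeff f ℓ := by
  classical
  have hex : ∃ M : ℕ, M ∣ N ∧ CuspForm.GoodEigensystemOccursAt f M :=
    ⟨N, dvd_rfl, CuspForm.GoodEigensystemOccursAt.refl hf⟩
  obtain ⟨hMN, g, hg, hgf⟩ := Nat.find_spec hex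
  refine ⟨Nat.find hex, hMN, g, ⟨hg, fun M' hM' hne hocc => ?_⟩, hgf⟩
  obtain ⟨g', hg', hg'g⟩ := hocc
  have hM0 : 0 < Nat.find hex := Nat.pos_of_dvd_of_pos hMN hN
  have hlt : M' < Nat.find hex := lt_of_le_of_ne (Nat.le_of_dvd hM0 hM') hne
  refine Nat.find_min hex hlt ⟨hM'.trans hMN, g', hg', fun ℓ hℓ hℓN => ?_⟩
  rw [hg'g ℓ hℓ (fun h => hℓN (h.trans hMN)), hgf ℓ hℓ hℓN]

end Fermat.Agent.H96.S58
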