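import Mathlib
import Fermat.Prelude.Def_WeierstrassCurve_ConductorLevel
import Fermat.Prelude.Def_FLTPrelim_ModularRep
import Fermat.Prelude.Def_CuspForm_HeckeGaloisRepDatum
import Fermat.Prelude.Def_CuspForm_Newforms
import Fermat.Prelude.Def_GaloisRep_LocalConditions
import Fermat.Prelude.Def_GaloisRep_Residual
import Fermat.Agent.H40.Hasse.Defs

/-!
# S58 GLUE: interfaces (helper96)

Conductor-level matching (frozen statement S58) from the frozen statements S35 and S36 and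
elementary facts on the torsion points of a semistable integral Weierstrass curve.

All statements below are `Prop`s; the rows of project `S58` prove them one by one, and
`Fermat.Agent.H96.S58.Assembly` glues them.

## Curve side (E-rows)

* `Hasse2Statement`, `Hasse3Statement` : the Hasse relation (in the form of
  `Fermat.Agent.H40.HasseRelation`) for every nonsingular Weierstrass curve over `ZMod 2`,
  `ZMod 3` (for `ℓ ≥ 5` it is `Fermat.Agent.H40.hasseRelation_reductionMod`).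
* `FrobRelStatement` : `σ² P - a_ℓ σ P + ℓ P = 0` on odd torsion prime to `ℓ`, at every good
  prime `ℓ` (including `ℓ = 2, 3`) and every Frobenius element `σ` at `ℓ`.
* `InertiaGoodStatement` : inertia at a good prime `q` fixes the torsion prime to `q`.
* `InertiaMultStatement` : inertia at a prime `q` of multiplicative reduction satisfies
  `(σ - 1)² = 0` on the odd torsion prime to `q` (general Weierstrass model, `q = 2` included).
* `TorsCardStatement` : `#E[n](ℚ̄) = n²` for odd `n`.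

## Galois side (G-rows)

* `ConjRootsStatement` : every involution `c ≠ 1` of `ℚ̄` inverts the roots of unity of odd
  prime order.
* `ResidualOddIrredStatement` : a residual representation with the Frobenius characteristic
  polynomials of `W` at almost all primes is odd and absolutely irreducible if `W[p]` is
  irreducible.
* `AdicUnipStatement` : an adic representation with the Frobenius characteristic polynomials
  of `W` at almost all primes is unipotent on inertia at every prime `q ≠ p` (`W` semistable).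
* `ResidualTraceStatement` : a residual representation with the Frobenius characteristic
  polynomials of `W` at almost all primes has trace `a_ℓ(W)` at every good prime `ℓ ≠ lam`
  at which its determinant is `ℓ`.
-/

set_option autoImplicit false

open Polynomial WeierstrassCurve WeierstrassCurve.Affine

namespace Fermat.Agent.H96.S58

/-! ### The frozen statements as `Prop`s -/

/-- The frozen statement S35, as a `Prop`. -/
def S35Statement : Prop :=
  ∀ {M : ℕ} [NeZero M] {g : CuspForm (CongruenceSubgroup.Gamma0 M) 2} (_ : g.IsNewform)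
    (lam : ℕ) [Fact lam.Prime]
    (S : Finset ℕ)
    (O' : Type) [CommRing O'] [IsDomain O'] [IsDiscreteValuationRing O']
    [IsAdicComplete (IsLocalRing.maximalIdeal O') O'] [Finite (IsLocalRing.ResidueField O')]
    [CharZero O'] (_ : (lam : O') ∈ IsLocalRing.maximalIdeal O')
    (chig : CuspForm.heckeAlgebra M 2 (↑S : Set ℕ) →+* ℂ)
    (_ : ∀ (ℓ : ℕ) (hℓ : ℓ.Prime) (hℓM : ¬ ℓ ∣ M) (hℓS : ℓ ∉ (↑S : Set ℕ)),
      chig (CuspForm.heckeAlgebra.T hℓ hℓM hℓS) = ModularFormClass.qCoeff g ℓ)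
    (iota : chig.range →+* O')
    (_ : lam ∈ S) (_ : ∀ q : ℕ, q.Prime → q ∣ M → q ∈ S),
    ∃ (O'' : Type) (_ : CommRing O'') (_ : IsDomain O'') (_ : IsDiscreteValuationRing O'')
      (_ : IsAdicComplete (IsLocalRing.maximalIdeal O'') O'')
      (_ : Finite (IsLocalRing.ResidueField O''))
      (_ : CharZero O'') (_ : Algebra O' O'') (_ : Module.Finite O' O'')
      (_ : IsLocalHom (algebraMap O' O'')),
      Function.Injective (algebraMap O' O'') ∧
      ∃ ρ : GaloisRepAdic O'',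
        (∀ (ℓ : ℕ) (hℓ : ℓ.Prime) (hℓM : ¬ ℓ ∣ M) (hℓS : ℓ ∉ (↑S : Set ℕ)),
          ∀ A : ValuationSubring (AlgebraicClosure ℚ), A.LiesOverPrime ℓ →
            ∀ σ : AlgebraicClosure ℚ ≃ₐ[ℚ] AlgebraicClosure ℚ, A.IsFrobeniusAt σ ℓ →
              LinearMap.charpoly (ρ.ρ σ) =
                X ^ 2 - C (algebraMap O' O'' ((iota.comp chig.rangeRestrict)
                  (CuspForm.heckeAlgebra.T hℓ hℓM hℓS))) * X + C ((ℓ : O''))) ∧
        (∀ q : ℕ, q.Prime → q ≠ lam → q ∣ M → ¬ q ^ 2 ∣ M →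
          ∀ A : ValuationSubring (AlgebraicClosure ℚ), A.LiesOverPrime q →
            ∀ σ : AlgebraicClosure ℚ ≃ₐ[ℚ] AlgebraicClosure ℚ, A.IsFrobeniusAt σ q →
              LinearMap.charpoly (ρ.ρ σ) = X ^ 2 - C ((q : O'') + 1) * X + C ((q : O'')) ∨
              LinearMap.charpoly (ρ.ρ σ) = X ^ 2 + C ((q : O'') + 1) * X + C ((q : O'')))

/-- The frozen statement S36, as a `Prop`. -/
def S36Statement : Prop :=
  ∀ {M : ℕ} [NeZero M] {g : CuspForm (CongruenceSubgroup.Gamma0 M) 2} (_ : g.IsNewform)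
    (lam : ℕ) [Fact lam.Prime]
    (S : Finset ℕ)
    (O' : Type) [CommRing O'] [IsDomain O'] [IsDiscreteValuationRing O']
    [IsAdicComplete (IsLocalRing.maximalIdeal O') O'] [Finite (IsLocalRing.ResidueField O')]
    [CharZero O'] (_ : (lam : O') ∈ IsLocalRing.maximalIdeal O')
    (_ : lam ≠ 2)
    (chig : CuspForm.heckeAlgebra M 2 (↑S : Set ℕ) →+* ℂ)
    (_ : ∀ (ℓ : ℕ) (hℓ : ℓ.Prime) (hℓM : ¬ ℓ ∣ M) (hℓS : ℓ ∉ (↑S : Set ℕ)),
      chig (CuspForm.heckeAlgebra.T hℓ hℓM hℓS) = ModularFormClass.qCoeff g ℓ)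
    (iota : chig.range →+* O')
    (_ : lam ∈ S) (_ : ∀ q : ℕ, q.Prime → q ∣ M → q ∈ S)
    (_ : ∀ (O'' : Type) [CommRing O''] [IsDomain O''] [IsDiscreteValuationRing O'']
      [IsAdicComplete (IsLocalRing.maximalIdeal O'') O'']
      [Finite (IsLocalRing.ResidueField O'')] [CharZero O'']
      [Algebra O' O''] [Module.Finite O' O''] [IsLocalHom (algebraMap O' O'')],
      Function.Injective (algebraMap O' O'') → ∀ (ρ : GaloisRepAdic O''),
      (∀ (ℓ : ℕ) (hℓ : ℓ.Prime) (_ : ℓ ≠ lam) (hℓM : ¬ ℓ ∣ M) (hℓS : ℓ ∉ (↑S : Set ℕ)),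
        ∀ A : ValuationSubring (AlgebraicClosure ℚ), A.LiesOverPrime ℓ →
          ∀ σ : AlgebraicClosure ℚ ≃ₐ[ℚ] AlgebraicClosure ℚ, A.IsFrobeniusAt σ ℓ →
            LinearMap.charpoly (ρ.ρ σ) =
              X ^ 2 - C (algebraMap O' O'' ((iota.comp chig.rangeRestrict)
                (CuspForm.heckeAlgebra.T hℓ hℓM hℓS))) * X + C ((ℓ : O'')))
      → ρ.residual.IsAbsolutelyIrreducible ∧ ρ.residual.IsOdd),
    ∃ (O'' : Type) (_ : CommRing O'') (_ : IsDomain O'') (_ : IsDiscreteValuationRing O'')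
      (_ : IsAdicComplete (IsLocalRing.maximalIdeal O'') O'')
      (_ : Finite (IsLocalRing.ResidueField O''))
      (_ : CharZero O'') (_ : Algebra O' O'') (_ : Module.Finite O' O'')
      (_ : IsLocalHom (algebraMap O' O'')),
      Function.Injective (algebraMap O' O'') ∧
      ∃ ρ : GaloisRepAdic O'',
        (∀ (ℓ : ℕ) (hℓ : ℓ.Prime) (hℓM : ¬ ℓ ∣ M) (hℓS : ℓ ∉ (↑S : Set ℕ)),
          ∀ A : ValuationSubring (AlgebraicClosure ℚ), A.LiesOverPrime ℓ →
            ∀ σ : AlgebraicClosure ℚ ≃ₐ[ℚ] AlgebraicClosure ℚ, A.IsFrobeniusAt σ ℓ →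
              LinearMap.charpoly (ρ.ρ σ) =
                X ^ 2 - C (algebraMap O' O'' ((iota.comp chig.rangeRestrict)
                  (CuspForm.heckeAlgebra.T hℓ hℓM hℓS))) * X + C ((ℓ : O''))) ∧
        (∀ q : ℕ, q.Prime → q ≠ lam → M.factorization q = 2 → ¬ ρ.IsUnipotentOnInertiaAt q)

/-- The frozen statement S58, as a `Prop`. -/
def S58Statement : Prop :=
  ∀ (W : WeierstrassCurve ℤ) (_ : W.IsSemistableModel) (N : ℕ)
    (p : ℕ) [Fact p.Prime] (_ : p ≠ 2) (_ : W.ModRepIsIrreducible p)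
    (_ : ¬ p ^ 2 ∣ N)
    (_ : W.IsModularModelOfLevel N) (_ : ∀ ℓ : ℕ, ℓ.Prime → (ℓ : ℤ) ∣ W.Δ → ℓ ∣ N)
    (_ : ∀ q : ℕ, q.Prime → ¬ q ^ 3 ∣ N),
    W.IsModularModelOfLevel W.conductorLevel

/-! ### Curve side -/

/-- **HASSE-2**: the Hasse relation for nonsingular Weierstrass curves over `ZMod 2`. -/
def Hasse2Statement : Prop :=
  ∀ E : WeierstrassCurve (ZMod 2), E.Δ ≠ 0 → Fermat.Agent.H40.HasseRelation E

/-- **HASSE-3**: the Hasse relation for nonsingular Weierstrass curves over `ZMod 3`. -/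
def Hasse3Statement : Prop :=
  ∀ E : WeierstrassCurve (ZMod 3), E.Δ ≠ 0 → Fermat.Agent.H40.HasseRelation E

/-- **FROB-REL**: the Frobenius relation on odd torsion prime to `ℓ`, at every good prime. -/
def FrobRelStatement : Prop :=
  ∀ (W : WeierstrassCurve ℤ) (ℓ : ℕ), ℓ.Prime → W.IsGoodPrimeFor ℓ →
    ∀ A : ValuationSubring (AlgebraicClosure ℚ), A.LiesOverPrime ℓ →
    ∀ σ : AlgebraicClosure ℚ ≃ₐ[ℚ] AlgebraicClosure ℚ, A.IsFrobeniusAt σ ℓ →
    ∀ n : ℕ, Odd n → ¬ ℓ ∣ n →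
    ∀ P : ((W.map (Int.castRingHom ℚ))⁄(AlgebraicClosure ℚ)).Point, n • P = 0 →
      σ • σ • P - W.apOfModel ℓ • σ • P + (ℓ : ℤ) • P = 0

/-- **INERTIA-GOOD**: inertia at a good prime `q` fixes the torsion points of order prime to
`q`. -/
def InertiaGoodStatement : Prop :=
  ∀ (W : WeierstrassCurve ℤ) (q : ℕ), q.Prime → W.IsGoodPrimeFor q →
    ∀ A : ValuationSubring (AlgebraicClosure ℚ), A.LiesOverPrime q →
    ∀ σ ∈ A.inertiaSubgroupIn ℚ, ∀ n : ℕ, ¬ q ∣ n →
    ∀ P : ((W.map (Int.castRingHom ℚ))⁄(AlgebraicClosure ℚ)).Point, n • P = 0 →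
      σ • P = P

/-- **INERTIA-MULT**: at a prime `q` of multiplicative reduction (`q ∣ Δ`, `q ∤ c₄`, `Δ ≠ 0`),
inertia acts unipotently on the odd torsion of order prime to `q`: `(σ - 1)² P = 0`. -/
def InertiaMultStatement : Prop :=
  ∀ (W : WeierstrassCurve ℤ), W.Δ ≠ 0 → ∀ q : ℕ, q.Prime → (q : ℤ) ∣ W.Δ → ¬ (q : ℤ) ∣ W.c₄ →
    ∀ A : ValuationSubring (AlgebraicClosure ℚ), A.LiesOverPrime q →
    ∀ σ ∈ A.inertiaSubgroupIn ℚ, ∀ n : ℕ, Odd n → ¬ q ∣ n →
    ∀ P : ((W.map (Int.castRingHom ℚ))⁄(AlgebraicClosure ℚ)).Point, n • P = 0 →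
      σ • (σ • P - P) = σ • P - P

/-- Inertia at any prime `q` acts unipotently on the odd torsion prime to `q` of a semistable
model. -/
def InertiaUnipStatement : Prop :=
  ∀ (W : WeierstrassCurve ℤ), W.IsSemistableModel → W.Δ ≠ 0 → ∀ q : ℕ, q.Prime →
    ∀ A : ValuationSubring (AlgebraicClosure ℚ), A.LiesOverPrime q →
    ∀ σ ∈ A.inertiaSubgroupIn ℚ, ∀ n : ℕ, Odd n → ¬ q ∣ n →
    ∀ P : ((W.map (Int.castRingHom ℚ))⁄(AlgebraicClosure ℚ)).Point, n • P = 0 →
      σ • (σ • P - P) = σ • P - P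

/-- **TORS-CARD**: `#E[n](ℚ̄) = n²` for odd `n` (`Δ ≠ 0`). -/
def TorsCardStatement : Prop :=
  ∀ (E : WeierstrassCurve ℚ), E.Δ ≠ 0 → ∀ n : ℕ, Odd n →
    Nat.card (Submodule.torsionBy ℤ (E⁄(AlgebraicClosure ℚ)).Point n) = n ^ 2

/-! ### Galois side -/

/-- **CONJ-ROOTS**: every involution `c ≠ 1` of `ℚ̄` inverts the `p`-th roots of unity, `p` an
odd prime. -/
def ConjRootsStatement : Prop :=
  ∀ c : AlgebraicClosure ℚ ≃ₐ[ℚ] AlgebraicClosure ℚ, c * c = 1 → c ≠ 1 →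
    ∀ p : ℕ, p.Prime → p ≠ 2 → ∀ ζ : AlgebraicClosure ℚ, ζ ^ p = 1 → c ζ = ζ⁻¹

/-- "`ρ` has the Frobenius characteristic polynomials of `W` outside `T`" (residual form). -/
def ResidualMatches (W : WeierstrassCurve ℤ) {k : Type} [Field k] (ρ : ResidualGaloisRep k)
    (T : Finset ℕ) : Prop :=
  ∀ ℓ : ℕ, ℓ.Prime → ℓ ∉ T →
    ∀ A : ValuationSubring (AlgebraicClosure ℚ), A.LiesOverPrime ℓ →
    ∀ σ : AlgebraicClosure ℚ ≃ₐ[ℚ] AlgebraicClosure ℚ, A.IsFrobeniusAt σ ℓ →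
      LinearMap.charpoly (ρ.ρ σ) = X ^ 2 - C ((W.apOfModel ℓ : ℤ) : k) * X + C ((ℓ : k))

/-- "`ρ` has the Frobenius characteristic polynomials of `W` outside `T`" (adic form). -/
def AdicMatches (W : WeierstrassCurve ℤ) {O : Type} [CommRing O] [IsLocalRing O]
    (ρ : GaloisRepAdic O) (T : Finset ℕ) : Prop :=
  ∀ ℓ : ℕ, ℓ.Prime → ℓ ∉ T →
    ∀ A : ValuationSubring (AlgebraicClosure ℚ), A.LiesOverPrime ℓ →
    ∀ σ : AlgebraicClosure ℚ ≃ₐ[ℚ] AlgebraicClosure ℚ, A.IsFrobeniusAt σ ℓ →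
      LinearMap.charpoly (ρ.ρ σ) = X ^ 2 - C ((W.apOfModel ℓ : ℤ) : O) * X + C ((ℓ : O))

/-- **G-A**: oddness and absolute irreducibility of a residual representation matching `W`,
when `W[p]` is irreducible. -/
def ResidualOddIrredStatement : Prop :=
  ∀ (W : WeierstrassCurve ℤ) (p : ℕ) [Fact p.Prime], p ≠ 2 → W.Δ ≠ 0 →
    W.ModRepIsIrreducible p →
    ∀ (k : Type) [Field k] [CharP k p] (ρ : ResidualGaloisRep k) (T : Finset ℕ),
      ResidualMatches W ρ T → ρ.IsAbsolutelyIrreducible ∧ ρ.IsOdd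

/-- **G-B**: an adic representation matching a semistable `W` is unipotent on inertia at
every prime `q ≠ p`. -/
def AdicUnipStatement : Prop :=
  ∀ (W : WeierstrassCurve ℤ) (p : ℕ) [Fact p.Prime], p ≠ 2 → W.IsSemistableModel → W.Δ ≠ 0 →
    ∀ (O : Type) [CommRing O] [IsDomain O] [IsDiscreteValuationRing O],
      (p : O) ∈ IsLocalRing.maximalIdeal O →
    ∀ (ρ : GaloisRepAdic O) (T : Finset ℕ), AdicMatches W ρ T →
    ∀ q : ℕ, q.Prime → q ≠ p → ρ.IsUnipotentOnInertiaAt q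

/-- **G-C**: a residual representation matching `W` has trace `a_ℓ(W)` at every Frobenius
element at a good prime `ℓ ≠ lam` at which its determinant is `ℓ`. -/
def ResidualTraceStatement : Prop :=
  ∀ (W : WeierstrassCurve ℤ) (lam : ℕ) [Fact lam.Prime], lam ≠ 2 → W.Δ ≠ 0 →
    ∀ (k : Type) [Field k] [CharP k lam] (ρ : ResidualGaloisRep k) (T : Finset ℕ),
      ResidualMatches W ρ T →
    ∀ ℓ : ℕ, ℓ.Prime → W.IsGoodPrimeFor ℓ → ℓ ≠ lam →
    ∀ A : ValuationSubring (AlgebraicClosure ℚ), A.LiesOverPrime ℓ →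
    ∀ σ : AlgebraicClosure ℚ ≃ₐ[ℚ] AlgebraicClosure ℚ, A.IsFrobeniusAt σ ℓ →
      LinearMap.det (ρ.ρ σ) = (ℓ : k) →
      LinearMap.trace k ρ.V (ρ.ρ σ) = ((W.apOfModel ℓ : ℤ) : k)

end Fermat.Agent.H96.S58
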