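import Mathlib
import Fermat.Agent.H51.S58.Interfaces

/-!
# S58-EMB (row 1090): Schur + Hensel embedding `ℤ[θ] → ℤ_[lam]`

`padicEmbedding : Fermat.Agent.H51.S58.PadicEmbeddingStatement`: for an algebraic integer `θ`
and a finite set `F` of primes there are a prime `lam ∉ F` and a ring homomorphism
`ι : ℤ[θ] → ℤ_[lam]` such that `ι θ ∈ ℤ` forces `θ ∈ ℤ`.

* `emb_schur`: a nonconstant integer polynomial has a root modulo a prime outside any finite set;
* `emb_bezout`: `u m + v m' = D ≠ 0` for a monic irreducible `m ∈ ℤ[X]`;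
* `emb_exists_root`: a root of `m` in `ℤ_[lam]` (Hensel);
* `emb_exists_hom`: the ring homomorphism out of `Subring.closure {θ}` attached to a root of the
  minimal polynomial.
-/

set_option autoImplicit false

open Polynomial

namespace Fermat.Agent.H96.S58


/-- A nonzero integer polynomial has a non-root. -/
theorem emb_exists_eval_ne_zero (Q : ℤ[X]) (hQ : Q ≠ 0) : ∃ t : ℤ, Q.eval t ≠ 0 := by
  by_contra h
  push Not at h
  exact hQ (Polynomial.funext (fun t => by rw [h t, eval_zero]))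

/-- **Schur**: a nonconstant integer polynomial has a root modulo some prime outside any given
finite set. -/
theorem emb_schur (f : ℤ[X]) (hf : 0 < f.natDegree) (F : Finset ℕ) :
    ∃ (lam : ℕ) (k : ℤ), lam.Prime ∧ lam ∉ F ∧ (lam : ℤ) ∣ f.eval k := by
  classical
  -- a prime outside `F`
  have hprime : ∃ lam : ℕ, lam.Prime ∧ lam ∉ F := by
    obtain ⟨lam, hlam, hp⟩ := Nat.exists_infinite_primes (F.sup id + 1)
    refine ⟨lam, hp, fun hmem => ?_⟩
    have : lam ≤ F.sup id := Finset.le_sup (f := id) hmem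
    omega
  set a₀ : ℤ := f.eval 0 with ha₀
  by_cases h0 : a₀ = 0
  · obtain ⟨lam, hp, hF⟩ := hprime
    exact ⟨lam, 0, hp, hF, by rw [← ha₀, h0]; exact dvd_zero _⟩
  -- the product of the nonzero elements of `F`
  set P : ℤ := ∏ q ∈ F.filter (· ≠ 0), (q : ℤ) with hP
  have hP0 : P ≠ 0 := by
    rw [hP]
    refine Finset.prod_ne_zero_iff.mpr fun q hq => ?_
    have := (Finset.mem_filter.mp hq).2
    exact_mod_cast this
  have hPdvd : ∀ q ∈ F, q ≠ 0 → (q : ℤ) ∣ P := fun q hq hq0 =>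
    Finset.dvd_prod_of_mem (fun q : ℕ => (q : ℤ)) (Finset.mem_filter.mpr ⟨hq, hq0⟩)
  -- the polynomial `U(T) = f(a₀ P T)`
  set c : ℤ := a₀ * P with hc
  have hc0 : c ≠ 0 := mul_ne_zero h0 hP0
  set U : ℤ[X] := f.comp (C c * X) with hU
  have hUdeg : U.natDegree = f.natDegree := by
    rw [hU, natDegree_comp, natDegree_C_mul_X c hc0, mul_one]
  have hQ : (U - C a₀) * (U + C a₀) ≠ 0 := by
    refine mul_ne_zero ?_ ?_
    · intro h
      have : U = C a₀ := sub_eq_zero.mp h
      have h2 := congrArg natDegree this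
      rw [hUdeg, natDegree_C] at h2
      omega
    · intro h
      have : U = C (-a₀) := by rw [C_neg]; exact eq_neg_of_add_eq_zero_left h
      have h2 := congrArg natDegree this
      rw [hUdeg, natDegree_C] at h2
      omega
  obtain ⟨t, ht⟩ := emb_exists_eval_ne_zero _ hQ
  have hUt : U.eval t = f.eval (c * t) := by
    rw [hU, eval_comp, eval_mul, eval_C, eval_X]
  have hne1 : f.eval (c * t) ≠ a₀ := by
    intro h
    apply ht
    rw [eval_mul, eval_sub, eval_C, hUt, h, sub_self, zero_mul]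
  have hne2 : f.eval (c * t) ≠ -a₀ := by
    intro h
    apply ht
    rw [eval_mul, eval_add, eval_C, hUt, h, neg_add_cancel, mul_zero]
  -- `f(c t) = a₀ (1 + P t s)`
  obtain ⟨s, hs⟩ : (c * t - 0) ∣ f.eval (c * t) - f.eval 0 := Polynomial.sub_dvd_eval_sub _ _ _
  rw [sub_zero, ← ha₀] at hs
  set v : ℤ := 1 + P * t * s with hv
  have hfv : f.eval (c * t) = a₀ * v := by
    rw [hv, hc]; linear_combination hs
  by_cases hv0 : v = 0
  · obtain ⟨lam, hp, hF⟩ := hprime
    exact ⟨lam, c * t, hp, hF, by rw [hfv, hv0, mul_zero]; exact dvd_zero _⟩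
  have hv1 : v.natAbs ≠ 1 := by
    intro h
    rcases Int.natAbs_eq v with h' | h'
    · rw [h] at h'
      exact hne1 (by rw [hfv, h']; simp)
    · rw [h] at h'
      exact hne2 (by rw [hfv, h']; simp)
  obtain ⟨lam, hp, hlv⟩ := Nat.exists_prime_and_dvd hv1
  have hlv' : (lam : ℤ) ∣ v := Int.natCast_dvd.mpr hlv
  refine ⟨lam, c * t, hp, fun hmem => ?_, ?_⟩
  · have h1 : (lam : ℤ) ∣ P := hPdvd lam hmem hp.ne_zero
    have h2 : (lam : ℤ) ∣ 1 := by
      have : (1 : ℤ) = v - P * t * s := by rw [hv]; ring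
      rw [this]
      exact dvd_sub hlv' (Dvd.dvd.mul_right (Dvd.dvd.mul_right h1 _) _)
    have := Int.eq_one_of_dvd_one (by positivity) h2
    have : lam = 1 := by exact_mod_cast this
    exact hp.one_lt.ne' this
  · rw [hfv]
    exact Dvd.dvd.mul_left hlv' _


/-- Integral Bezout identity for an irreducible monic integer polynomial and its derivative. -/
theorem emb_bezout (m : ℤ[X]) (hm : m.Monic) (hirr : Irreducible m) :
    ∃ (u v : ℤ[X]) (D : ℤ), D ≠ 0 ∧ u * m + v * derivative m = C D := by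
  have hirrQ : Irreducible (m.map (Int.castRingHom ℚ)) :=
    (Monic.irreducible_iff_irreducible_map_fraction_map (K := ℚ) hm).mp hirr
  have hsep : (m.map (Int.castRingHom ℚ)).Separable := hirrQ.separable
  obtain ⟨U, V, hUV⟩ := hsep
  rw [derivative_map] at hUV
  obtain ⟨b₁, hb₁, hu⟩ := IsLocalization.integerNormalization_spec (nonZeroDivisors ℤ) U
  obtain ⟨b₂, hb₂, hv⟩ := IsLocalization.integerNormalization_spec (nonZeroDivisors ℤ) V
  have hb₁0 : b₁ ≠ 0 := nonZeroDivisors.ne_zero hb₁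
  have hb₂0 : b₂ ≠ 0 := nonZeroDivisors.ne_zero hb₂
  refine ⟨C b₂ * IsLocalization.integerNormalization (nonZeroDivisors ℤ) U,
    C b₁ * IsLocalization.integerNormalization (nonZeroDivisors ℤ) V, b₁ * b₂,
    mul_ne_zero hb₁0 hb₂0, ?_⟩
  apply Polynomial.map_injective (Int.castRingHom ℚ) Int.cast_injective
  have e1 : algebraMap ℤ ℚ = Int.castRingHom ℚ := rfl
  rw [e1] at hu hv
  simp only [Polynomial.map_add, Polynomial.map_mul, Polynomial.map_C, hu, hv]
  rw [Algebra.smul_def, Algebra.smul_def]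
  simp only [eq_intCast, map_mul, map_intCast]
  linear_combination ((b₁ : ℚ[X]) * (b₂ : ℚ[X])) * hUV



/-- A root in `ℤ_[lam]` of a monic irreducible integer polynomial, for some prime `lam` outside a
given finite set. -/
theorem emb_exists_root (m : ℤ[X]) (hm : m.Monic) (hirr : Irreducible m) (F : Finset ℕ) :
    ∃ (lam : ℕ) (_ : Fact lam.Prime), lam ∉ F ∧ ∃ r : ℤ_[lam], aeval r m = 0 := by
  classical
  obtain ⟨u, v, D, hD, huv⟩ := emb_bezout m hm hirr
  have hdeg : 0 < m.natDegree := by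
    rcases Nat.eq_zero_or_pos m.natDegree with h | h
    · exfalso
      have h1 : m = 1 := by
        have hc : m.coeff 0 = 1 := by
          have := hm.leadingCoeff
          rwa [leadingCoeff, h] at this
        rw [eq_C_of_natDegree_eq_zero h, hc, C_1]
      exact hirr.not_isUnit (h1 ▸ isUnit_one)
    · exact h
  obtain ⟨lam, k, hp, hF, hk⟩ := emb_schur m hdeg (F ∪ D.natAbs.primeFactors)
  have : Fact lam.Prime := ⟨hp⟩
  have hF1 : lam ∉ F := fun h => hF (Finset.mem_union_left _ h)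
  have hlD : ¬ (lam : ℤ) ∣ D := by
    intro h
    apply hF
    refine Finset.mem_union_right _ (Nat.mem_primeFactors.mpr ⟨hp, ?_, ?_⟩)
    · exact Int.natCast_dvd.mp h
    · exact Int.natAbs_ne_zero.mpr hD
  have hder : ¬ (lam : ℤ) ∣ (derivative m).eval k := by
    intro h
    apply hlD
    have := congrArg (eval k) huv
    rw [eval_add, eval_mul, eval_mul, eval_C] at this
    rw [← this]
    exact dvd_add (Dvd.dvd.mul_left hk _) (Dvd.dvd.mul_left h _)
  have e1 : ∀ g : ℤ[X], aeval ((k : ℤ) : ℤ_[lam]) g = ((g.eval k : ℤ) : ℤ_[lam]) := by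
    intro g
    have := Polynomial.aeval_algebraMap_apply (A := ℤ) ℤ_[lam] k g
    simpa using this
  have hnorm : ‖aeval ((k : ℤ) : ℤ_[lam]) m‖ <
      ‖aeval ((k : ℤ) : ℤ_[lam]) (derivative m)‖ ^ 2 := by
    rw [e1, e1]
    have h1 : ‖((m.eval k : ℤ) : ℤ_[lam])‖ < 1 := (PadicInt.norm_int_lt_one_iff_dvd _).mpr hk
    have h2 : ‖(((derivative m).eval k : ℤ) : ℤ_[lam])‖ = 1 := by
      refine le_antisymm (PadicInt.norm_le_one _) (not_lt.mp fun h => hder ?_)
      exact (PadicInt.norm_int_lt_one_iff_dvd _).mp h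
    rw [h2, one_pow]
    exact h1
  obtain ⟨r, hr, -⟩ := hensels_lemma hnorm
  exact ⟨lam, ⟨hp⟩, hF1, r, hr⟩



/-- The closure of `{θ}` is contained in `ℤ[θ]`. -/
theorem emb_closure_le (θ : ℂ) :
    ∀ x ∈ Subring.closure ({θ} : Set ℂ), x ∈ Algebra.adjoin ℤ ({θ} : Set ℂ) := by
  intro x hx
  have : Subring.closure ({θ} : Set ℂ) ≤ (Algebra.adjoin ℤ ({θ} : Set ℂ)).toSubring :=
    Subring.closure_le.mpr (by
      intro y hy
      exact Algebra.subset_adjoin hy)
  exact this hx

/-- A ring homomorphism `ℤ[θ] → B` sending `θ` to a given root of the minimal polynomial. -/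
theorem emb_exists_hom (θ : ℂ) (hθ : IsIntegral ℤ θ) {B : Type*} [CommRing B] (r : B)
    (hr : aeval r (minpoly ℤ θ) = 0) :
    ∃ ι : (Subring.closure ({θ} : Set ℂ)) →+* B,
      ι ⟨θ, Subring.subset_closure (Set.mem_singleton θ)⟩ = r := by
  let e := minpoly.equivAdjoin hθ
  let L : AdjoinRoot (minpoly ℤ θ) →+* B :=
    AdjoinRoot.lift (algebraMap ℤ B) r (by rw [← aeval_def]; exact hr)
  let f : Algebra.adjoin ℤ ({θ} : Set ℂ) →+* B := L.comp (e.symm : _ →+* _)
  have hf : f ⟨θ, Algebra.subset_adjoin (Set.mem_singleton θ)⟩ = r := by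
    have he : e (AdjoinRoot.root (minpoly ℤ θ)) =
        ⟨θ, Algebra.subset_adjoin (Set.mem_singleton θ)⟩ := by
      show minpoly.equivAdjoin hθ (AdjoinRoot.root (minpoly ℤ θ)) = _
      rw [minpoly.coe_equivAdjoin]
      apply Subtype.ext
      rw [← AdjoinRoot.mk_X]
      exact AdjoinRoot.Minpoly.coe_toAdjoin_mk_X
    show L (e.symm ⟨θ, _⟩) = r
    rw [← he, AlgEquiv.symm_apply_apply]
    exact AdjoinRoot.lift_root _
  refine ⟨{ toFun := fun x => f ⟨x.1, emb_closure_le θ x.1 x.2⟩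
            map_one' := map_one f
            map_mul' := fun x y => map_mul f ⟨x.1, _⟩ ⟨y.1, _⟩
            map_zero' := map_zero f
            map_add' := fun x y => map_add f ⟨x.1, _⟩ ⟨y.1, _⟩ }, hf⟩

theorem padicEmbedding : Fermat.Agent.H51.S58.PadicEmbeddingStatement := by
  intro θ hθ F
  have hm : (minpoly ℤ θ).Monic := minpoly.monic hθ
  have hirr : Irreducible (minpoly ℤ θ) := minpoly.irreducible hθ
  obtain ⟨lam, hlam, hF, r, hr⟩ := emb_exists_root (minpoly ℤ θ) hm hirr F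
  obtain ⟨ι, hι⟩ := emb_exists_hom θ hθ r hr
  refine ⟨lam, hlam, hF, ι, fun a ha => ?_⟩
  rw [hι] at ha
  -- `a` is a root of the minimal polynomial
  have h0 : (minpoly ℤ θ).eval a = 0 := by
    have h1 : aeval ((a : ℤ) : ℤ_[lam]) (minpoly ℤ θ) = 0 := by rw [← ha]; exact hr
    have h2 := Polynomial.aeval_algebraMap_apply (A := ℤ) ℤ_[lam] a (minpoly ℤ θ)
    simp only [algebraMap_int_eq, eq_intCast] at h2
    rw [h2] at h1
    have h3 : ((aeval a (minpoly ℤ θ) : ℤ) : ℤ_[lam]) = ((0 : ℤ) : ℤ_[lam]) := by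
      rw [h1, Int.cast_zero]
    have := Int.cast_injective h3
    rwa [← Polynomial.coe_aeval_eq_eval]
  obtain ⟨w, hw⟩ := Polynomial.dvd_iff_isRoot.mpr h0
  -- `w` is a unit
  have hwu : IsUnit w := by
    rcases hirr.isUnit_or_isUnit hw with h | h
    · exact absurd h (Polynomial.not_isUnit_X_sub_C a)
    · exact h
  have hθ0 : aeval θ (minpoly ℤ θ) = 0 := minpoly.aeval ℤ θ
  rw [hw, map_mul] at hθ0
  have hwθ : aeval θ w ≠ 0 := (hwu.map (aeval θ (R := ℤ))).ne_zero
  have := (mul_eq_zero.mp hθ0).resolve_right hwθ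
  rw [map_sub, aeval_X, aeval_C, algebraMap_int_eq, eq_intCast] at this
  exact sub_eq_zero.mp this

end Fermat.Agent.H96.S58
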