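/-
S58 GLUE (sub-lead helper51), q-stabilisation, coefficient side.  Mathlib only.

Let `a : ℕ → R` be a "normalized eigen-sequence of level `M`" (the four axioms of the prelude
structure `CuspForm.IsNormalizedEigenform`), `q` a prime not dividing `M` and `α, β` with
`α + β = a q`, `α * β = q`.  Then `b n = a n - β * a (n / q)` (second term only if `q ∣ n`)
is a normalized eigen-sequence of level `M * q`, and `b n = a n` for `n` prime to `q`.
-/
import Mathlib

set_option autoImplicit false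

namespace Fermat.Agent.H96.S58

/-- The four axioms of a normalized eigen-sequence of level `N`. -/
structure IsEigenSeq {R : Type*} [CommRing R] (N : ℕ) (a : ℕ → R) : Prop where
  one : a 1 = 1
  mul_of_coprime : ∀ m n : ℕ, m.Coprime n → a (m * n) = a m * a n
  prime_pow_of_not_dvd : ∀ p r : ℕ, p.Prime → ¬ p ∣ N →
    a (p ^ (r + 2)) = a p * a (p ^ (r + 1)) - p * a (p ^ r)
  prime_pow_of_dvd : ∀ p r : ℕ, p.Prime → p ∣ N → a (p ^ (r + 2)) = a p * a (p ^ (r + 1))

variable {R : Type*} [CommRing R]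

/-- The `q`-stabilised sequence. -/
def stabSeq (q : ℕ) (β : R) (a : ℕ → R) (n : ℕ) : R :=
  a n - β * (if q ∣ n then a (n / q) else 0)

theorem stabSeq_of_not_dvd {q : ℕ} (β : R) (a : ℕ → R) {n : ℕ} (h : ¬ q ∣ n) :
    stabSeq q β a n = a n := by
  rw [stabSeq, if_neg h, mul_zero, sub_zero]

theorem stabSeq_of_dvd {q : ℕ} (β : R) (a : ℕ → R) {n : ℕ} (h : q ∣ n) :
    stabSeq q β a n = a n - β * a (n / q) := by
  rw [stabSeq, if_pos h]

theorem stabSeq_of_coprime {q : ℕ} (hq : q.Prime) (β : R) (a : ℕ → R) {n : ℕ}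
    (h : n.Coprime q) : stabSeq q β a n = a n :=
  stabSeq_of_not_dvd β a (fun hd => hq.ne_one (Nat.Coprime.eq_one_of_dvd h.symm hd))

/-- Powers of a prime `p ≠ q` are not divisible by `q`. -/
theorem not_dvd_prime_pow {p q : ℕ} (hp : p.Prime) (hq : q.Prime) (hpq : p ≠ q) (k : ℕ) :
    ¬ q ∣ p ^ k := fun h =>
  hpq ((Nat.prime_dvd_prime_iff_eq hq hp).mp (hq.dvd_of_dvd_pow h)).symm

/-- **q-stabilisation of eigen-sequences.** -/
theorem isEigenSeq_stabSeq {M q : ℕ} (hq : q.Prime) (hqM : ¬ q ∣ M) {a : ℕ → R}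
    (ha : IsEigenSeq M a) {α β : R} (hsum : α + β = a q) (hprod : α * β = q) :
    IsEigenSeq (M * q) (stabSeq q β a) := by
  have hq1 : ¬ q ∣ 1 := fun h => hq.ne_one (Nat.dvd_one.mp h)
  refine ⟨?_, ?_, ?_, ?_⟩
  · rw [stabSeq_of_not_dvd β a hq1, ha.one]
  · intro m n hmn
    by_cases hm : q ∣ m
    · have hn : ¬ q ∣ n := fun hn => hq.ne_one (Nat.eq_one_of_dvd_coprimes hmn hm hn)
      obtain ⟨m', rfl⟩ := hm
      have hmn' : m'.Coprime n := Nat.Coprime.coprime_mul_left hmn
      have e1 : q * m' * n / q = m' * n := by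
        rw [mul_assoc, Nat.mul_div_cancel_left _ hq.pos]
      have e2 : q * m' / q = m' := Nat.mul_div_cancel_left _ hq.pos
      rw [stabSeq_of_dvd β a (Dvd.dvd.mul_right (Dvd.intro m' rfl) n),
        stabSeq_of_dvd β a (Dvd.intro m' rfl), stabSeq_of_not_dvd β a hn, e1, e2,
        ha.mul_of_coprime _ _ hmn, ha.mul_of_coprime _ _ hmn']
      ring
    · by_cases hn : q ∣ n
      · obtain ⟨n', rfl⟩ := hn
        have hmn' : m.Coprime n' := Nat.Coprime.coprime_mul_left_right hmn
        have e1 : m * (q * n') / q = m * n' := by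
          rw [mul_left_comm, Nat.mul_div_cancel_left _ hq.pos]
        have e2 : q * n' / q = n' := Nat.mul_div_cancel_left _ hq.pos
        rw [stabSeq_of_dvd β a (Dvd.dvd.mul_left (Dvd.intro n' rfl) m),
          stabSeq_of_dvd β a (Dvd.intro n' rfl), stabSeq_of_not_dvd β a hm, e1, e2,
          ha.mul_of_coprime _ _ hmn, ha.mul_of_coprime _ _ hmn']
        ring
      · have hmn' : ¬ q ∣ m * n := fun h => (hq.dvd_mul.mp h).elim hm hn
        rw [stabSeq_of_not_dvd β a hmn', stabSeq_of_not_dvd β a hm, stabSeq_of_not_dvd β a hn,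
          ha.mul_of_coprime _ _ hmn]
  · intro p r hp hpN
    have hpM : ¬ p ∣ M := fun h => hpN (Dvd.dvd.mul_right h q)
    have hpq : p ≠ q := fun h => hpN (h ▸ Dvd.intro_left M rfl)
    rw [stabSeq_of_not_dvd β a (not_dvd_prime_pow hp hq hpq _),
      stabSeq_of_not_dvd β a (not_dvd_prime_pow hp hq hpq _),
      stabSeq_of_not_dvd β a (not_dvd_prime_pow hp hq hpq _),
      stabSeq_of_not_dvd β a (fun h => hpq ((Nat.prime_dvd_prime_iff_eq hq hp).mp h).symm),
      ha.prime_pow_of_not_dvd p r hp hpM]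
  · intro p r hp hpN
    by_cases hpq : p = q
    · subst hpq
      have e2 : p ^ (r + 2) / p = p ^ (r + 1) := by
        rw [pow_succ, Nat.mul_div_cancel _ hp.pos]
      have e1 : p ^ (r + 1) / p = p ^ r := by
        rw [pow_succ, Nat.mul_div_cancel _ hp.pos]
      have e0 : p / p = 1 := Nat.div_self hp.pos
      rw [stabSeq_of_dvd β a (dvd_pow_self p (by omega)),
        stabSeq_of_dvd β a (dvd_pow_self p (by omega)), stabSeq_of_dvd β a dvd_rfl, e2, e1, e0,
        ha.one, ha.prime_pow_of_not_dvd p r hp hqM, ← hsum]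
      have : ((p : ℕ) : R) = α * β := hprod.symm
      rw [this]
      ring
    · have hpM : p ∣ M := by
        rcases hp.dvd_mul.mp hpN with h | h
        · exact h
        · exact absurd ((Nat.prime_dvd_prime_iff_eq hp hq).mp h) hpq
      rw [stabSeq_of_not_dvd β a (not_dvd_prime_pow hp hq hpq _),
        stabSeq_of_not_dvd β a (not_dvd_prime_pow hp hq hpq _),
        stabSeq_of_not_dvd β a (fun h => hpq ((Nat.prime_dvd_prime_iff_eq hq hp).mp h).symm),
        ha.prime_pow_of_dvd p r hp hpM]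

end Fermat.Agent.H96.S58
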