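/-
S58 GLUE (sub-lead helper51), q-stabilisation, analytic side.

For a cusp form `f` of weight `k` on `Γ₀(M)` and `q ≠ 0` the function `τ ↦ f (q τ)` is a cusp
form on `Γ₀(M q)` (`vForm`), with `q`-expansion `∑ a_n 𝕢 ^ (q n)`.  For a normalized eigenform
`f` of weight 2 on `Γ₀(M)` and a prime `q ∤ M` the form `f(τ) - β f(q τ)` (`α + β = a_q`,
`α β = q`) is a normalized eigenform on `Γ₀(M q)` with the same coefficients prime to `q`.
-/
import Mathlib
import Fermat.Prelude.Def_FLTPrelim_Modularity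
import Fermat.Prelude.Thm_CongruenceSubgroup_one_mem_strictPeriods_Gamma0
import Fermat.Agent.H96.S58.QStabCoeff

set_option autoImplicit false

open UpperHalfPlane CongruenceSubgroup ModularFormClass Matrix Matrix.SpecialLinearGroup
open scoped MatrixGroups ModularForm Pointwise

noncomputable section

namespace Fermat.Agent.H96.S58

local notation "𝕢" => Function.Periodic.qParam

/-- The matrix `[q, 0; 0, 1]`. -/
def dmat (q : ℕ) [NeZero q] : GL (Fin 2) ℝ :=
  Matrix.GeneralLinearGroup.mkOfDetNeZero !![(q : ℝ), 0; 0, 1] (by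
    rw [Matrix.det_fin_two_of]
    simpa using NeZero.ne q)

lemma coe_dmat_smul (q : ℕ) [NeZero q] (τ : ℍ) : ((dmat q • τ : ℍ) : ℂ) = q * (τ : ℂ) := by
  have hq : (0 : ℝ) < q := by exact_mod_cast Nat.pos_of_ne_zero (NeZero.ne q)
  simp [dmat, σ, num, denom, UpperHalfPlane.coe_smul, Matrix.GeneralLinearGroup.val_det_apply,
    Matrix.det_fin_two_of, hq]

lemma slash_dmat (f : ℍ → ℂ) (k : ℤ) (q : ℕ) [NeZero q] (τ : ℍ) :
    (f ∣[k] dmat q) τ = (q : ℂ) ^ (k - 1) * f (dmat q • τ) := by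
  have hq : (0 : ℝ) < q := by exact_mod_cast Nat.pos_of_ne_zero (NeZero.ne q)
  rw [ModularForm.slash_def]
  simp [dmat, σ, denom, Matrix.GeneralLinearGroup.val_det_apply, Matrix.det_fin_two_of, hq,
    abs_of_pos hq]
  ring

/-- Restriction of a cusp form to a smaller subgroup. -/
def restrCusp {Γ Γ' : Subgroup (GL (Fin 2) ℝ)} (h : Γ' ≤ Γ) {k : ℤ} (f : CuspForm Γ k) :
    CuspForm Γ' k where
  toFun := f
  slash_action_eq' γ hγ := f.slash_action_eq' γ (h hγ)
  holo' := f.holo'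
  zero_at_cusps' hc := f.zero_at_cusps' (hc.mono h)

/-- For `γ ∈ Γ₀(M q)` the matrix `δ γ δ⁻¹`, `δ = [q, 0; 0, 1]`, is in `Γ₀(M)`. -/
theorem exists_conj_dmat (M q : ℕ) [NeZero q] (γ : SL(2, ℤ)) (hγ : γ ∈ Gamma0 (M * q)) :
    ∃ γ' : SL(2, ℤ), γ' ∈ Gamma0 M ∧
      dmat q * (mapGL ℝ γ : GL (Fin 2) ℝ) = (mapGL ℝ γ' : GL (Fin 2) ℝ) * dmat q := by
  rw [Gamma0_mem] at hγ
  have hc : ((M * q : ℕ) : ℤ) ∣ γ 1 0 := (ZMod.intCast_zmod_eq_zero_iff_dvd _ _).mp hγ
  obtain ⟨c₀, hc₀⟩ := hc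
  have hdet : γ 0 0 * γ 1 1 - γ 0 1 * γ 1 0 = 1 := by
    have := γ.2
    rwa [Matrix.det_fin_two] at this
  set a := γ 0 0 with ha
  set b := γ 0 1 with hb
  set c := γ 1 0 with hc
  set d := γ 1 1 with hd
  have hc₀' : c = q * (M * c₀) := by rw [hc₀]; push_cast; ring
  have hdet' : a * d - (q * b) * (M * c₀) = 1 := by
    rw [hc₀'] at hdet
    linear_combination hdet
  let γ' : SL(2, ℤ) := ⟨!![a, q * b; M * c₀, d], by
    rw [Matrix.det_fin_two_of]; exact hdet'⟩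
  have h00 : γ' 0 0 = a := rfl
  have h01 : γ' 0 1 = q * b := rfl
  have h10 : γ' 1 0 = M * c₀ := rfl
  have h11 : γ' 1 1 = d := rfl
  refine ⟨γ', ?_, ?_⟩
  · rw [Gamma0_mem, h10]
    push_cast
    simp
  · have hcR : (c : ℝ) = q * (M * c₀) := by exact_mod_cast hc₀'
    apply Units.ext
    ext i k
    fin_cases i <;> fin_cases k
    · simp [dmat, Matrix.mul_apply, Fin.sum_univ_two, h00, ← ha]
      ring
    · simp [dmat, Matrix.mul_apply, Fin.sum_univ_two, h01, ← hb]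
    · simp [dmat, Matrix.mul_apply, Fin.sum_univ_two, h10, ← hc]
      rw [hcR]
      ring
    · simp [dmat, Matrix.mul_apply, Fin.sum_univ_two, h11, ← hd]

/-- `Γ₀(M q) ≤ δ⁻¹ Γ₀(M) δ`. -/
theorem gamma0_le_conj (M q : ℕ) [NeZero q] :
    ((Gamma0 (M * q) : Subgroup SL(2, ℤ)) : Subgroup (GL (Fin 2) ℝ)) ≤
      ConjAct.toConjAct (dmat q)⁻¹ •
        ((Gamma0 M : Subgroup SL(2, ℤ)) : Subgroup (GL (Fin 2) ℝ)) := by
  intro g hg
  obtain ⟨γ, hγ, rfl⟩ := Subgroup.mem_map.mp hg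
  rw [map_inv, Subgroup.mem_inv_pointwise_smul_iff, ConjAct.toConjAct_smul]
  obtain ⟨γ', hγ', hmat⟩ := exists_conj_dmat M q γ hγ
  rw [hmat, mul_assoc, mul_inv_cancel, mul_one]
  exact Subgroup.mem_map_of_mem _ hγ'

/-- `Γ₀(M q) ≤ Γ₀(M)`. -/
theorem gamma0_mul_le (M q : ℕ) :
    ((Gamma0 (M * q) : Subgroup SL(2, ℤ)) : Subgroup (GL (Fin 2) ℝ)) ≤
      ((Gamma0 M : Subgroup SL(2, ℤ)) : Subgroup (GL (Fin 2) ℝ)) := by
  refine Subgroup.map_mono (fun γ hγ => ?_)
  rw [Gamma0_mem] at hγ ⊢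
  have := congrArg (ZMod.castHom (Dvd.intro q rfl : M ∣ M * q) (ZMod M)) hγ
  rwa [map_intCast, map_zero] at this

/-- `f` viewed at level `M q`. -/
def raiseForm (M q : ℕ) {k : ℤ} (f : CuspForm (Gamma0 M) k) : CuspForm (Gamma0 (M * q)) k :=
  restrCusp (gamma0_mul_le M q) f

@[simp] lemma coe_raiseForm (M q : ℕ) {k : ℤ} (f : CuspForm (Gamma0 M) k) :
    ⇑(raiseForm M q f) = ⇑f := rfl

/-- The form `τ ↦ f (q τ)` on `Γ₀(M q)`. -/
def vForm (M q : ℕ) [NeZero q] {k : ℤ} (f : CuspForm (Gamma0 M) k) :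
    CuspForm (Gamma0 (M * q)) k :=
  ((q : ℂ) ^ (k - 1))⁻¹ • restrCusp (gamma0_le_conj M q) (CuspForm.translate f (dmat q))

lemma vForm_apply (M q : ℕ) [NeZero q] {k : ℤ} (f : CuspForm (Gamma0 M) k) (τ : ℍ) :
    vForm M q f τ = f (dmat q • τ) := by
  have hq : (q : ℂ) ≠ 0 := by exact_mod_cast NeZero.ne q
  show ((q : ℂ) ^ (k - 1))⁻¹ • ((⇑f) ∣[k] dmat q) τ = _
  rw [slash_dmat, smul_eq_mul, ← mul_assoc, inv_mul_cancel₀ (zpow_ne_zero _ hq), one_mul]

lemma qParam_dmat (q : ℕ) [NeZero q] (τ : ℍ) :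
    𝕢 1 ((dmat q • τ : ℍ) : ℂ) = 𝕢 1 (τ : ℂ) ^ q := by
  rw [coe_dmat_smul, Function.Periodic.qParam, Function.Periodic.qParam, ← Complex.exp_nat_mul]
  congr 1
  push_cast
  ring

/-- The `q`-expansion of `τ ↦ f (q τ)`. -/
theorem hasSum_vForm (M q : ℕ) [NeZero q] {k : ℤ} (f : CuspForm (Gamma0 M) k) (τ : ℍ) :
    HasSum (fun n : ℕ => (if q ∣ n then qCoeff f (n / q) else 0) * 𝕢 1 (τ : ℂ) ^ n)
      (vForm M q f τ) := by
  have h1M := CongruenceSubgroup.one_mem_strictPeriods_Gamma0 M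
  have hcusp : Fact (IsCusp OnePoint.infty (Gamma0 M : Subgroup (GL (Fin 2) ℝ))) :=
    ⟨Subgroup.isCusp_of_mem_strictPeriods one_pos h1M⟩
  have h := ModularForm.hasSum_qExpansion f one_pos h1M (dmat q • τ)
  rw [vForm_apply]
  have hqpos : 0 < q := Nat.pos_of_ne_zero (NeZero.ne q)
  have hinj : Function.Injective (fun m : ℕ => q * m) :=
    fun a b hab => Nat.eq_of_mul_eq_mul_left hqpos hab
  rw [← hinj.hasSum_iff]
  · convert h using 1
    funext m
    simp only [Function.comp_apply, qParam_dmat, qCoeff, Nat.mul_div_cancel_left _ hqpos,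
      if_pos (Dvd.intro m rfl), pow_mul]
  · intro n hn
    have hqn : ¬ q ∣ n := fun ⟨m, hm⟩ => hn ⟨m, hm.symm⟩
    rw [if_neg hqn, zero_mul]

/-- The `q`-expansion of the stabilisation. -/
theorem qCoeff_stab (M q : ℕ) [NeZero q] {k : ℤ} (f : CuspForm (Gamma0 M) k) (β : ℂ) (n : ℕ) :
    qCoeff (⇑(raiseForm M q f - β • vForm M q f : CuspForm (Gamma0 (M * q)) k)) n =
      stabSeq q β (qCoeff f) n := by
  have h1M := CongruenceSubgroup.one_mem_strictPeriods_Gamma0 M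
  have h1Mq := CongruenceSubgroup.one_mem_strictPeriods_Gamma0 (M * q)
  have hcusp : Fact (IsCusp OnePoint.infty (Gamma0 M : Subgroup (GL (Fin 2) ℝ))) :=
    ⟨Subgroup.isCusp_of_mem_strictPeriods one_pos h1M⟩
  symm
  refine ModularFormClass.qExpansion_coeff_unique (c := stabSeq q β (qCoeff f)) one_pos h1Mq
    (f := raiseForm M q f - β • vForm M q f) (fun τ => ?_) n
  have hf0 : HasSum (fun m : ℕ => (qExpansion 1 f).coeff m * 𝕢 1 (τ : ℂ) ^ m) (f τ) :=
    ModularForm.hasSum_qExpansion f one_pos h1M τ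
  have hv := hasSum_vForm M q f τ
  have hcomb := hf0.sub (hv.mul_left β)
  have hval : (raiseForm M q f - β • vForm M q f) τ = f τ - β * vForm M q f τ := rfl
  rw [hval]
  have hfun : (fun m : ℕ => stabSeq q β (qCoeff f) m • 𝕢 1 (τ : ℂ) ^ m) =
      fun m : ℕ => (qExpansion 1 f).coeff m * 𝕢 1 (τ : ℂ) ^ m -
        β * ((if q ∣ m then qCoeff f (m / q) else 0) * 𝕢 1 (τ : ℂ) ^ m) := by
    funext m
    simp only [stabSeq, qCoeff, smul_eq_mul]
    ring
  rw [hfun]
  exact hcomb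

/-- Roots of `X ^ 2 - a X + b` over `ℂ`. -/
theorem exists_roots (a b : ℂ) : ∃ α β : ℂ, α + β = a ∧ α * β = b := by
  obtain ⟨s, hs⟩ := IsAlgClosed.exists_pow_nat_eq (a ^ 2 - 4 * b) (n := 2) (by norm_num)
  refine ⟨(a + s) / 2, (a - s) / 2, by ring, ?_⟩
  have : (a + s) / 2 * ((a - s) / 2) = (a ^ 2 - s ^ 2) / 4 := by ring
  rw [this, hs]
  ring

/-- **q-stabilisation**: a normalized eigenform on `Γ₀(M)` gives a normalized eigenform on
`Γ₀(M q)` (`q` a prime not dividing `M`) with the same coefficients prime to `q`. -/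
theorem qStab {M q : ℕ} (hq : q.Prime) (hqM : ¬ q ∣ M) (f : CuspForm (Gamma0 M) 2)
    (hf : f.IsNormalizedEigenform) :
    ∃ g : CuspForm (Gamma0 (M * q)) 2, g.IsNormalizedEigenform ∧
      ∀ n : ℕ, ¬ q ∣ n → qCoeff g n = qCoeff f n := by
  have : NeZero q := ⟨hq.ne_zero⟩
  obtain ⟨α, β, hsum, hprod⟩ := exists_roots (qCoeff f q) (q : ℂ)
  have ha : IsEigenSeq M (qCoeff f) :=
    ⟨hf.qCoeff_one, hf.qCoeff_mul_of_coprime, hf.qCoeff_prime_pow_of_not_dvd,
      hf.qCoeff_prime_pow_of_dvd⟩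
  have hb := isEigenSeq_stabSeq hq hqM ha hsum hprod
  have hco : ∀ n, qCoeff (⇑(raiseForm M q f - β • vForm M q f : CuspForm (Gamma0 (M * q)) 2)) n =
      stabSeq q β (qCoeff f) n := fun n => qCoeff_stab M q f β n
  refine ⟨raiseForm M q f - β • vForm M q f, ⟨?_, ?_, ?_, ?_⟩, ?_⟩
  · rw [hco]
    exact hb.one
  · intro m n hmn
    rw [hco, hco, hco]
    exact hb.mul_of_coprime m n hmn
  · intro p r hp hpN
    rw [hco, hco, hco, hco]
    exact hb.prime_pow_of_not_dvd p r hp hpN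
  · intro p r hp hpN
    rw [hco, hco, hco]
    exact hb.prime_pow_of_dvd p r hp hpN
  · intro n hn
    rw [hco, stabSeq_of_not_dvd β _ hn]

/-- **Iterated q-stabilisation**: from level `M` to level `M * D`, `D` squarefree and prime to
`M`. -/
theorem qStab_iter {M : ℕ} (f : CuspForm (Gamma0 M) 2) (hf : f.IsNormalizedEigenform) :
    ∀ D : ℕ, Squarefree D → M.Coprime D → ∀ N : ℕ, N = M * D →
      ∃ g : CuspForm (Gamma0 N) 2, g.IsNormalizedEigenform ∧
        ∀ n : ℕ, n.Coprime D → qCoeff g n = qCoeff f n := by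
  intro D
  induction D using Nat.strong_induction_on with
  | _ D ih =>
    intro hsq hcop N hN
    by_cases hD1 : D = 1
    · subst hD1
      subst hN
      refine ⟨raiseForm M 1 f, ⟨hf.qCoeff_one, hf.qCoeff_mul_of_coprime, ?_, ?_⟩, fun n _ => rfl⟩
      · intro p r hp hpN
        exact hf.qCoeff_prime_pow_of_not_dvd p r hp (by rwa [mul_one] at hpN)
      · intro p r hp hpN
        exact hf.qCoeff_prime_pow_of_dvd p r hp (by rwa [mul_one] at hpN)
    · obtain ⟨q, hq, hqD⟩ := Nat.exists_prime_and_dvd hD1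
      obtain ⟨D', rfl⟩ := hqD
      have hD'0 : D' ≠ 0 := by
        rintro rfl
        rw [mul_zero] at hsq
        exact not_squarefree_zero hsq
      have hlt : D' < q * D' := by
        have := hq.one_lt
        nlinarith [Nat.pos_of_ne_zero hD'0]
      have hsq' : Squarefree D' := hsq.of_mul_right
      have hcop' : M.Coprime D' := Nat.Coprime.coprime_mul_left_right hcop
      have hqD' : ¬ q ∣ D' := by
        intro h
        have h1 : q * q ∣ q * D' := mul_dvd_mul_left q h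
        exact hq.ne_one (Nat.isUnit_iff.mp (hsq q h1))
      have hqM : ¬ q ∣ M := by
        intro h
        have h1 : q ∣ Nat.gcd M (q * D') := Nat.dvd_gcd h (Dvd.intro D' rfl)
        rw [hcop.gcd_eq_one] at h1
        exact hq.ne_one (Nat.dvd_one.mp h1)
      obtain ⟨g', hg', hco'⟩ := ih D' hlt hsq' hcop' (M * D') rfl
      have hqMD' : ¬ q ∣ M * D' := by
        rw [hq.dvd_mul]
        tauto
      obtain ⟨g, hg, hco⟩ := qStab hq hqMD' g' hg'
      have e : N = M * D' * q := by rw [hN]; ring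
      subst e
      refine ⟨g, hg, fun n hn => ?_⟩
      have hnq : ¬ q ∣ n := by
        intro h
        have h1 : q ∣ Nat.gcd n (q * D') := Nat.dvd_gcd h (Dvd.intro D' rfl)
        rw [hn.gcd_eq_one] at h1
        exact hq.ne_one (Nat.dvd_one.mp h1)
      rw [hco n hnq]
      exact hco' n (Nat.Coprime.coprime_mul_left_right hn)

/-- **Level raising to a squarefree level**: a normalized eigenform of level `M` gives a
normalized eigenform of every squarefree level `N` divisible by `M`, with the same coefficients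
`a_n`, `n` prime to `N / M`. -/
theorem qStab_squarefree {M N : ℕ} (hN : Squarefree N) (hMN : M ∣ N)
    (f : CuspForm (Gamma0 M) 2) (hf : f.IsNormalizedEigenform) :
    ∃ g : CuspForm (Gamma0 N) 2, g.IsNormalizedEigenform ∧
      ∀ n : ℕ, n.Coprime (N / M) → qCoeff g n = qCoeff f n := by
  obtain ⟨D, rfl⟩ := hMN
  have hM0 : 0 < M := by
    rcases Nat.eq_zero_or_pos M with h | h
    · subst h
      rw [zero_mul] at hN
      exact absurd hN not_squarefree_zero
    · exact h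
  have hD : Squarefree D := hN.of_mul_right
  have hcop : M.Coprime D := by
    rw [Nat.coprime_iff_gcd_eq_one]
    by_contra hne
    obtain ⟨p, hp, hpg⟩ := Nat.exists_prime_and_dvd hne
    have h1 : p * p ∣ M * D :=
      mul_dvd_mul (hpg.trans (Nat.gcd_dvd_left M D)) (hpg.trans (Nat.gcd_dvd_right M D))
    exact hp.ne_one (Nat.isUnit_iff.mp (hN p h1))
  rw [Nat.mul_div_cancel_left D hM0]
  exact qStab_iter f hf D hD hcop (M * D) rfl

end Fermat.Agent.H96.S58

end
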