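/-
S58 GLUE (sub-lead helper51): the trivial bound `|a_q(W)| ≤ q`.

For a Weierstrass curve over a finite field `F` with `q` elements the number of points
(prelude `WeierstrassCurve.card`) satisfies `1 ≤ #W ≤ 2 q + 1`, hence
`-q ≤ traceOfFrobenius ≤ q`; in particular `a_q(W) ≠ ± (q + 1)`.
Mathlib + prelude definitions only.
-/
import Mathlib
import Fermat.Prelude.Def_FLTPrelim_Modularity

set_option autoImplicit false
set_option linter.unusedSectionVars false
set_option linter.style.haveILetI false

open Polynomial

namespace Fermat.Agent.H96.S58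

section field

variable {F : Type*} [Field F] [Fintype F] [DecidableEq F] (W : WeierstrassCurve F)

/-- The quadratic polynomial in `Y` cut out by the Weierstrass equation at `x`. -/
noncomputable def fibrePoly (x : F) : F[X] :=
  X ^ 2 + C (W.a₁ * x + W.a₃) * X - C (x ^ 3 + W.a₂ * x ^ 2 + W.a₄ * x + W.a₆)

theorem fibrePoly_natDegree (x : F) : (fibrePoly W x).natDegree = 2 := by
  unfold fibrePoly
  compute_degree!

theorem fibrePoly_ne_zero (x : F) : fibrePoly W x ≠ 0 := by
  intro h
  have := fibrePoly_natDegree W x
  rw [h, natDegree_zero] at this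
  exact absurd this (by norm_num)

theorem mem_roots_fibrePoly {x y : F} (h : W.toAffine.Equation x y) :
    y ∈ (fibrePoly W x).roots := by
  rw [mem_roots (fibrePoly_ne_zero W x), IsRoot.def]
  rw [WeierstrassCurve.Affine.equation_iff] at h
  simp only [fibrePoly, eval_sub, eval_add, eval_pow, eval_X, eval_mul, eval_C]
  linear_combination h

/-- The affine solutions of the Weierstrass equation. -/
noncomputable def solFinset : Finset (F × F) :=
  Finset.univ.biUnion fun x => ((fibrePoly W x).roots.toFinset).image fun y => (x, y)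

theorem card_solFinset_le : (solFinset W).card ≤ 2 * Fintype.card F := by
  unfold solFinset
  refine Finset.card_biUnion_le.trans ?_
  have h : ∀ x ∈ (Finset.univ : Finset F),
      (((fibrePoly W x).roots.toFinset).image fun y => (x, y)).card ≤ 2 := by
    intro x _
    refine Finset.card_image_le.trans ?_
    refine (Multiset.toFinset_card_le _).trans ?_
    refine (card_roots' _).trans ?_
    rw [fibrePoly_natDegree]
  refine (Finset.sum_le_card_nsmul _ _ 2 h).trans ?_
  rw [Finset.card_univ, smul_eq_mul, mul_comm]

/-- The point map to `Option (F × F)`. -/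
def pointPair : W.toAffine.Point → Option (F × F)
  | .zero => none
  | .some x y _ => Option.some (x, y)

theorem pointPair_injective : Function.Injective (pointPair W) := by
  rintro (_ | ⟨x₁, y₁, h₁⟩) (_ | ⟨x₂, y₂, h₂⟩) h <;>
    simp only [pointPair, Option.some.injEq, Prod.mk.injEq, reduceCtorEq] at h
  · rfl
  · obtain ⟨rfl, rfl⟩ := h; rfl

theorem pointPair_mem (P : W.toAffine.Point) :
    pointPair W P ∈ (insert none ((solFinset W).image Option.some) : Finset (Option (F × F))) := by
  rcases P with _ | ⟨x, y, h⟩
  · exact Finset.mem_insert_self _ _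
  · refine Finset.mem_insert_of_mem (Finset.mem_image.mpr ⟨(x, y), ?_, rfl⟩)
    unfold solFinset
    refine Finset.mem_biUnion.mpr ⟨x, Finset.mem_univ _, Finset.mem_image.mpr ⟨y, ?_, rfl⟩⟩
    rw [Multiset.mem_toFinset]
    exact mem_roots_fibrePoly W h.1

/-- `#W(F) ≤ 2 q + 1`. -/
theorem card_le : W.card ≤ 2 * Fintype.card F + 1 := by
  classical
  haveI : Finite W.toAffine.Point := Finite.of_injective _ (pointPair_injective W)
  haveI : Fintype W.toAffine.Point := Fintype.ofFinite _
  unfold WeierstrassCurve.card
  rw [Nat.card_eq_fintype_card, ← Finset.card_univ]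
  have h1 : (Finset.univ : Finset W.toAffine.Point).card ≤
      (insert none ((solFinset W).image Option.some) : Finset (Option (F × F))).card :=
    Finset.card_le_card_of_injOn (pointPair W) (fun P _ => pointPair_mem W P)
      (fun a _ b _ hab => pointPair_injective W hab)
  refine h1.trans ?_
  refine (Finset.card_insert_le _ _).trans ?_
  have := Finset.card_image_le (s := solFinset W) (f := Option.some)
  have := card_solFinset_le W
  omega

/-- `1 ≤ #W(F)`. -/
theorem one_le_card : 1 ≤ W.card := by
  haveI : Finite W.toAffine.Point := Finite.of_injective _ (pointPair_injective W)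
  haveI : Nonempty W.toAffine.Point := ⟨.zero⟩
  exact Nat.card_pos

/-- `-q ≤ a ≤ q`. -/
theorem traceOfFrobenius_bounds :
    -(Fintype.card F : ℤ) ≤ W.traceOfFrobenius ∧ W.traceOfFrobenius ≤ (Fintype.card F : ℤ) := by
  have h1 := card_le W
  have h2 := one_le_card W
  unfold WeierstrassCurve.traceOfFrobenius
  rw [Nat.card_eq_fintype_card]
  constructor <;> omega

end field

/-- **Trivial bound**: `|a_q(W)| ≤ q`. -/
theorem apOfModel_abs_le (W : WeierstrassCurve ℤ) (q : ℕ) [Fact q.Prime] :
    |W.apOfModel q| ≤ (q : ℤ) := by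
  classical
  have h := traceOfFrobenius_bounds (W.reductionMod q)
  rw [ZMod.card] at h
  rw [abs_le]
  exact h

/-- `a_q(W) ≠ q + 1`. -/
theorem apOfModel_ne_succ (W : WeierstrassCurve ℤ) (q : ℕ) [Fact q.Prime] :
    W.apOfModel q ≠ (q : ℤ) + 1 := by
  intro h
  have := (abs_le.mp (apOfModel_abs_le W q)).2
  omega

/-- `a_q(W) ≠ -(q + 1)`. -/
theorem apOfModel_ne_neg_succ (W : WeierstrassCurve ℤ) (q : ℕ) [Fact q.Prime] :
    W.apOfModel q ≠ -((q : ℤ) + 1) := by
  intro h
  have := (abs_le.mp (apOfModel_abs_le W q)).1
  omega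

end Fermat.Agent.H96.S58
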